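import Mathlib

/-!
# Intervals disjoint modulo one, closest returns and density of irrational multiples
-/

set_option autoImplicit false

noncomputable section

open Set MeasureTheory Filter

namespace FA.Denjoy

/-- Intervals whose integer translates are pairwise disjoint have total length at most one. -/
theorem sum_length_le_one {ι : Type*} (s : Finset ι) {p q : ι → ℝ} (hpq : ∀ i ∈ s, p i < q i)
    (hdisj : ∀ i ∈ s, ∀ j ∈ s, ∀ m : ℤ, ∀ z : ℝ, p i < z → z < q i → p j + m < z → z < q j + m →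
      i = j ∧ m = 0) :
    ∑ i ∈ s, (q i - p i) ≤ 1 := by
  rcases s.eq_empty_or_nonempty with rfl | ⟨i₀, hi₀⟩
  · simp
  set c := p i₀
  -- translate every interval to start in `[c, c + 1)`
  set P : ι → ℝ := fun i => p i + ((-⌊p i - c⌋ : ℤ) : ℝ) with hP
  set Q : ι → ℝ := fun i => q i + ((-⌊p i - c⌋ : ℤ) : ℝ) with hQ
  have hin : ∀ i ∈ s, c ≤ P i ∧ Q i ≤ c + 1 := by
    intro i hi
    have h1 := Int.floor_le (p i - c)
    have h2 := Int.lt_floor_add_one (p i - c)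
    refine ⟨by simp only [hP]; push_cast; linarith, ?_⟩
    by_contra hlt
    push Not at hlt
    simp only [hQ] at hlt
    push_cast at hlt
    set k := ⌊p i - c⌋
    -- overlap with the first interval translated by one
    obtain ⟨z, hz1, hz2⟩ := exists_between (show c + 1 + k < min (q i) (q i₀ + 1 + k) from
      lt_min (by linarith) (by linarith [hpq i₀ hi₀]))
    rw [lt_min_iff] at hz2
    obtain ⟨rfl, hk⟩ := hdisj i hi i₀ hi₀ (k + 1) z (by linarith) hz2.1
      (by push_cast; linarith) (by push_cast; linarith [hz2.2])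
    simp [k, c] at hk
  have hsum : ∀ i ∈ s, q i - p i = Q i - P i := fun i _ => by simp [hP, hQ]
  rw [Finset.sum_congr rfl hsum]
  have hd : (s : Set ι).PairwiseDisjoint fun i => Ioo (P i) (Q i) := by
    intro i hi j hj hne
    refine disjoint_left.2 fun z hzi hzj => hne ?_
    simp only [mem_Ioo, hP, hQ] at hzi hzj
    push_cast at hzi hzj
    exact (hdisj i hi j hj (⌊p i - c⌋ - ⌊p j - c⌋) (z + ⌊p i - c⌋) (by linarith) (by linarith)
      (by push_cast; linarith) (by push_cast; linarith)).1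
  have hvol : ∑ i ∈ s, volume (Ioo (P i) (Q i)) ≤ volume (Icc c (c + 1)) := by
    rw [← measure_biUnion_finset hd fun i _ => measurableSet_Ioo]
    exact measure_mono (iUnion₂_subset fun i hi z hz =>
      ⟨(hin i hi).1.trans hz.1.le, hz.2.le.trans (hin i hi).2⟩)
  simp only [Real.volume_Ioo, Real.volume_Icc] at hvol
  have hnn : ∀ i ∈ s, 0 ≤ Q i - P i := fun i hi => by
    rw [← hsum i hi]; linarith [hpq i hi]
  rw [← ENNReal.ofReal_sum_of_nonneg hnn, add_sub_cancel_left,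
    ENNReal.ofReal_le_ofReal_iff zero_le_one] at hvol
  exact hvol

/-- `n τ` is closer to an integer than every earlier multiple of `τ`. -/
def IsReturn (τ : ℝ) (n : ℕ) : Prop :=
  0 < n ∧ ∃ m : ℤ, |(n : ℝ) * τ - m| < 1 ∧
    ∀ k : ℕ, 0 < k → k < n → ∀ l : ℤ, |(n : ℝ) * τ - m| < |(k : ℝ) * τ - l|

theorem exists_small {τ : ℝ} (hτ : Irrational τ) {ε : ℝ} (hε : 0 < ε) :
    ∃ (n : ℕ) (m : ℤ), 0 < n ∧ |(n : ℝ) * τ - m| < ε ∧ (n : ℝ) * τ - m ≠ 0 := by
  obtain ⟨N, hN⟩ := exists_nat_gt (1 / ε)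
  have hN0 : 0 < N := by exact_mod_cast (one_div_pos.2 hε).trans hN
  obtain ⟨j, hj, -, hle⟩ := Real.exists_nat_abs_mul_sub_round_le τ hN0
  refine ⟨j, round ((j : ℝ) * τ), hj, hle.trans_lt ?_, sub_ne_zero.2 fun e => ?_⟩
  · rw [div_lt_comm₀ (by positivity) hε]; linarith
  · exact (hτ.natCast_mul hj.ne').ne_int _ e

theorem infinite_returns {τ : ℝ} (hτ : Irrational τ) : {n | IsReturn τ n}.Infinite := by
  refine Set.infinite_of_forall_exists_gt fun N => ?_
  classical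
  set d : ℕ → ℝ := fun k => |(k : ℝ) * τ - round ((k : ℝ) * τ)|
  have hd : ∀ k, 0 < k → 0 < d k := fun k hk =>
    abs_pos.2 (sub_ne_zero.2 fun e => (hτ.natCast_mul hk.ne').ne_int _ e)
  obtain ⟨δ, hδ0, hδ⟩ : ∃ δ, 0 < δ ∧ δ ≤ 1 ∧ ∀ k ∈ Finset.Icc 1 N, δ ≤ d k := by
    obtain ⟨k₀, hk₀, hmin⟩ := (Finset.Icc 1 (N + 1)).exists_min_image d
      ⟨1, Finset.mem_Icc.2 ⟨le_rfl, by omega⟩⟩
    refine ⟨min 1 (d k₀), lt_min one_pos (hd _ (Finset.mem_Icc.1 hk₀).1), min_le_left _ _,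
      fun k hk => (min_le_right _ _).trans (hmin k (Finset.mem_Icc.2 ?_))⟩
    have := Finset.mem_Icc.1 hk
    omega
  have hex : ∃ n, 0 < n ∧ d n < δ := by
    obtain ⟨n, m, hn, hm, -⟩ := exists_small hτ hδ0
    exact ⟨n, hn, (round_le _ m).trans_lt hm⟩
  obtain ⟨hn, hlt⟩ := Nat.find_spec hex
  refine ⟨Nat.find hex, ⟨hn, round ((Nat.find hex : ℝ) * τ), hlt.trans_le hδ.1,
    fun k hk hkn l => ?_⟩, ?_⟩
  · have hk' : ¬ d k < δ := fun h => Nat.find_min hex hkn ⟨hk, h⟩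
    exact hlt.trans_le ((not_lt.1 hk').trans (round_le _ l))
  · by_contra hle
    exact absurd hlt (not_lt.2 (hδ.2 _ (Finset.mem_Icc.2 ⟨hn, not_lt.1 hle⟩)))

/-- The forward multiples of an irrational number are dense modulo one. -/
theorem dense_nat_mul_add_int {τ : ℝ} (hτ : Irrational τ) (c : ℝ) :
    Dense {y : ℝ | ∃ (n : ℕ) (m : ℤ), y = c + n * τ + m} := by
  refine Metric.dense_iff.2 fun y ε hε => ?_
  obtain ⟨n, m, -, hm, hne⟩ := exists_small hτ hε
  set δ := (n : ℝ) * τ - m with hδ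
  obtain ⟨l, k, hk⟩ : ∃ (l : ℤ) (k : ℕ), |(k : ℝ) * δ - (y - c - l)| < ε := by
    rcases lt_or_gt_of_ne hne with h | h
    · refine ⟨⌈y - c⌉, ⌊(y - c - ⌈y - c⌉) / δ⌋₊, ?_⟩
      have hle := Int.le_ceil (y - c)
      set r := (y - c - ⌈y - c⌉) / δ with hr
      have hr0 : 0 ≤ r := div_nonneg_of_nonpos (by linarith) h.le
      have he : y - c - ⌈y - c⌉ = r * δ := (div_mul_cancel₀ _ hne).symm
      rw [he, ← sub_mul, abs_mul]
      refine lt_of_le_of_lt (mul_le_of_le_one_left (abs_nonneg _) ?_) hm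
      rw [abs_le]
      constructor <;> linarith [Nat.floor_le hr0, Nat.lt_floor_add_one r]
    · refine ⟨⌊y - c⌋, ⌊(y - c - ⌊y - c⌋) / δ⌋₊, ?_⟩
      have hle := Int.floor_le (y - c)
      set r := (y - c - ⌊y - c⌋) / δ with hr
      have hr0 : 0 ≤ r := div_nonneg (by linarith) h.le
      have he : y - c - ⌊y - c⌋ = r * δ := (div_mul_cancel₀ _ hne).symm
      rw [he, ← sub_mul, abs_mul]
      refine lt_of_le_of_lt (mul_le_of_le_one_left (abs_nonneg _) ?_) hm
      rw [abs_le]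
      constructor <;> linarith [Nat.floor_le hr0, Nat.lt_floor_add_one r]
  refine ⟨c + ((k * n : ℕ) : ℝ) * τ + ((l - k * m : ℤ) : ℝ), ?_, k * n, l - k * m, rfl⟩
  rw [Metric.mem_ball, Real.dist_eq]
  refine lt_of_eq_of_lt (congrArg abs ?_) hk
  rw [hδ]; push_cast; ring

end FA.Denjoy

end
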