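import Fermat.Agent.Denjoy.Intervals

/-!
# Denjoy's theorem

A semiconjugacy to an irrational translation that is constant on an interval gives a wandering
interval; for a closest return `n` the chain rule bounds `(f^n)' (f^(-n))'` from below by
`exp (-C)`, `C` the Lipschitz constant of `log f'`, so wandering intervals do not shrink.
-/

set_option autoImplicit false

noncomputable section

open Function Set Filter

namespace FA.Denjoy

variable {f g h f' : ℝ → ℝ} {τ C : ℝ}

theorem semiconj_iterate (hsc : ∀ x, h (f x) = h x + τ) :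
    ∀ (n : ℕ) (x : ℝ), h (f^[n] x) = h x + n * τ := by
  intro n
  induction n with
  | zero => simp
  | succ n ih => intro x; rw [iterate_succ_apply, ih, hsc]; push_cast; ring

theorem map_add_int {h : ℝ → ℝ} (h1 : ∀ x, h (x + 1) = h x + 1) (x : ℝ) (m : ℤ) :
    h (x + m) = h x + m := by
  induction m with
  | zero => simp
  | succ i ih =>
    push_cast at ih ⊢
    rw [← add_assoc, h1, ih, add_assoc]
  | pred i ih =>
    push_cast at ih ⊢
    have := h1 (x + (-(i : ℝ) - 1))
    rw [show x + (-(i : ℝ) - 1) + 1 = x + -(i : ℝ) by ring, ih] at this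
    linarith

theorem hasDerivAt_iterate (hd : ∀ x, HasDerivAt f (f' x) x) :
    ∀ (n : ℕ) (x : ℝ), HasDerivAt f^[n] (∏ i ∈ Finset.range n, f' (f^[i] x)) x := by
  intro n
  induction n with
  | zero => intro x; simpa using hasDerivAt_id x
  | succ n ih =>
    intro x
    rw [iterate_succ', Finset.prod_range_succ, mul_comm]
    exact (hd (f^[n] x)).comp x (ih x)

/-- **The bound at a closest return.** -/
theorem sum_abs_le_one (hmono : Monotone h) (h1 : ∀ x, h (x + 1) = h x + 1)
    (hsc : ∀ x, h (f x) = h x + τ) (hgf : RightInverse g f) {n : ℕ} {m : ℤ}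
    (hm : |(n : ℝ) * τ - m| < 1)
    (hret : ∀ k : ℕ, 0 < k → k < n → ∀ l : ℤ, |(n : ℝ) * τ - m| < |(k : ℝ) * τ - l|) (y : ℝ) :
    ∑ i ∈ Finset.range n, |f^[i] (g^[n] y) + m - f^[i] y| ≤ 1 := by
  classical
  set A : ℕ → ℝ := fun i => f^[i] y with hA
  set B : ℕ → ℝ := fun i => f^[i] (g^[n] y) + m with hB
  have hgn : h (g^[n] y) = h y - n * τ := by
    have := semiconj_iterate hsc n (g^[n] y)
    rw [(hgf.iterate n) y] at this
    linarith
  set δ := (n : ℝ) * τ - m with hδ
  have himg : ∀ i z, min (A i) (B i) < z → z < max (A i) (B i) →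
      min 0 (-δ) ≤ h z - (h y + i * τ) ∧ h z - (h y + i * τ) ≤ max 0 (-δ) := by
    intro i z hz1 hz2
    have hAi : h (A i) = h y + i * τ := semiconj_iterate hsc i y
    have hBi : h (B i) = h y + i * τ - δ := by
      simp only [hB]
      rw [map_add_int h1, semiconj_iterate hsc, hgn, hδ]; ring
    have lo := hmono hz1.le
    have hi := hmono hz2.le
    rw [hmono.map_min, hAi, hBi] at lo
    rw [hmono.map_max, hAi, hBi] at hi
    constructor
    · rcases le_total 0 (-δ) with h0 | h0
      · rw [min_eq_left h0]; rw [min_eq_left (by linarith)] at lo; linarith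
      · rw [min_eq_right h0]; rw [min_eq_right (by linarith)] at lo; linarith
    · rcases le_total 0 (-δ) with h0 | h0
      · rw [max_eq_right h0]; rw [max_eq_right (by linarith)] at hi; linarith
      · rw [max_eq_left h0]; rw [max_eq_left (by linarith)] at hi; linarith
  set s := (Finset.range n).filter fun i => A i ≠ B i
  have hs : ∑ i ∈ Finset.range n, |B i - A i| = ∑ i ∈ s, (max (A i) (B i) - min (A i) (B i)) := by
    rw [Finset.sum_filter]
    refine Finset.sum_congr rfl fun i _ => ?_
    rw [max_sub_min_eq_abs]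
    split_ifs with hne
    · rfl
    · rw [not_not] at hne; simp [hne]
  rw [hs]
  refine sum_length_le_one s (fun i hi => min_lt_max.2 (Finset.mem_filter.1 hi).2)
    fun i hi j hj l z hi1 hi2 hj1 hj2 => ?_
  have hin := Finset.mem_range.1 (Finset.mem_filter.1 hi).1
  have hjn := Finset.mem_range.1 (Finset.mem_filter.1 hj).1
  have e1 := himg i z hi1 hi2
  have e2 := himg j (z - l) (by linarith) (by linarith)
  rw [show z - (l : ℝ) = z + ((-l : ℤ) : ℝ) by push_cast; ring, map_add_int h1] at e2
  push_cast at e2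
  have hspan : max 0 (-δ) - min 0 (-δ) = |δ| := by
    rw [max_sub_min_eq_abs, sub_zero, abs_neg]
  have hdist : |((i : ℝ) - j) * τ - l| ≤ |δ| := by
    rw [abs_le]
    constructor <;> linarith [e1.1, e1.2, e2.1, e2.2]
  rcases lt_trichotomy i j with hij | rfl | hij
  · have := hret (j - i) (by omega) (by omega) (-l)
    rw [Nat.cast_sub hij.le] at this
    push_cast at this
    rw [← abs_neg] at hdist
    exact absurd hdist (not_le.2 (this.trans_eq (congrArg abs (by ring))))
  · refine ⟨rfl, ?_⟩
    rw [sub_self, zero_mul, zero_sub, abs_neg] at hdist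
    exact Int.abs_lt_one_iff.1 (by exact_mod_cast hdist.trans_lt hm)
  · have := hret (i - j) (by omega) (by omega) l
    rw [Nat.cast_sub hij.le] at this
    exact absurd hdist (not_le.2 this)

/-- The chain rule at a closest return. -/
theorem log_prod_diff_ge (hmono : Monotone h) (h1 : ∀ x, h (x + 1) = h x + 1)
    (hsc : ∀ x, h (f x) = h x + τ) (hgf : RightInverse g f)
    (hper : ∀ x, f' (x + 1) = f' x)
    (hlip : ∀ x y, |Real.log (f' x) - Real.log (f' y)| ≤ C * |x - y|)
    (hC : 0 ≤ C) {n : ℕ} (hn : IsReturn τ n) (y : ℝ) :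
    -C ≤ ∑ i ∈ Finset.range n, Real.log (f' (f^[i] y)) -
      ∑ i ∈ Finset.range n, Real.log (f' (f^[i] (g^[n] y))) := by
  obtain ⟨-, m, hm, hret⟩ := hn
  have hp : ∀ x, f' (x + (m : ℝ)) = f' x := fun x => by
    simpa using (show Function.Periodic f' 1 from hper).int_mul m x
  have hb : ∀ i ∈ Finset.range n, -(C * |f^[i] (g^[n] y) + m - f^[i] y|) ≤
      Real.log (f' (f^[i] y)) - Real.log (f' (f^[i] (g^[n] y))) := fun i _ => by
    have h := (abs_le.1 (hlip (f^[i] y) (f^[i] (g^[n] y) + m))).1
    rwa [hp, abs_sub_comm (f^[i] y)] at h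
  rw [← Finset.sum_sub_distrib]
  refine le_trans ?_ (Finset.sum_le_sum hb)
  rw [Finset.sum_neg_distrib, ← Finset.mul_sum, neg_le_neg_iff]
  exact mul_le_of_le_one_right hC (sum_abs_le_one hmono h1 hsc hgf hm hret y)

/-- Intervals on which the semiconjugacy is constant are wandering. -/
theorem injective_of_semiconj (hf : ∀ x, HasDerivAt f (f' x) x) (hpos : ∀ x, 0 < f' x)
    (hgl : LeftInverse g f) (hgr : RightInverse g f) (hper : ∀ x, f' (x + 1) = f' x)
    (hlip : ∀ x y, |Real.log (f' x) - Real.log (f' y)| ≤ C * |x - y|) (hC : 0 ≤ C)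
    (hτ : Irrational τ) (hmono : Monotone h) (h1 : ∀ x, h (x + 1) = h x + 1)
    (hsc : ∀ x, h (f x) = h x + τ) : StrictMono h := by
  refine hmono.strictMono_iff_injective.2 fun a b hab => ?_
  by_contra hne
  wlog hlt : a < b generalizing a b
  · exact this b a hab.symm (Ne.symm hne) (lt_of_le_of_ne (not_lt.1 hlt) (Ne.symm hne))
  have hfmono : StrictMono f := strictMono_of_hasDerivAt_pos hf hpos
  have hgmono : StrictMono g := fun x y hxy => hfmono.lt_iff_lt.1 (by rwa [hgr, hgr])
  have hcf : Continuous f := continuous_iff_continuousAt.2 fun x => (hf x).continuousAt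
  have hcg : Continuous g := hgmono.monotone.continuous_of_surjective hgl.surjective
  set κ := 2 * Real.exp (-C / 2) with hκ
  -- intervals do not shrink at returns
  have grow : ∀ n, IsReturn τ n →
      κ * (b - a) ≤ (f^[n] b - f^[n] a) + (g^[n] b - g^[n] a) := by
    intro n hn
    have hk : ∀ y, HasDerivAt (fun y => f^[n] y + g^[n] y - κ * y)
        (∏ i ∈ Finset.range n, f' (f^[i] y) +
          (∏ i ∈ Finset.range n, f' (f^[i] (g^[n] y)))⁻¹ - κ) y := fun y => by
      have hP : ∏ i ∈ Finset.range n, f' (f^[i] (g^[n] y)) ≠ 0 :=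
        Finset.prod_ne_zero_iff.2 fun i _ => (hpos _).ne'
      have hG : HasDerivAt g^[n] (∏ i ∈ Finset.range n, f' (f^[i] (g^[n] y)))⁻¹ y :=
        HasDerivAt.of_local_left_inverse (hcg.iterate n).continuousAt
          (hasDerivAt_iterate hf n _) hP (Eventually.of_forall (hgr.iterate n))
      refine (((hasDerivAt_iterate hf n y).add hG).sub
        ((hasDerivAt_id y).const_mul κ)).congr_deriv ?_
      simp
    have hge : ∀ y, 0 ≤ ∏ i ∈ Finset.range n, f' (f^[i] y) +
        (∏ i ∈ Finset.range n, f' (f^[i] (g^[n] y)))⁻¹ - κ := fun y => by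
      have hlog := log_prod_diff_ge hmono h1 hsc hgr hper hlip hC hn y
      rw [← Real.log_prod fun i _ => (hpos _).ne', ← Real.log_prod fun i _ => (hpos _).ne'] at hlog
      set P := ∏ i ∈ Finset.range n, f' (f^[i] y)
      set Q := ∏ i ∈ Finset.range n, f' (f^[i] (g^[n] y))
      have hP : 0 < P := Finset.prod_pos fun i _ => hpos _
      have hQ : 0 < Q := Finset.prod_pos fun i _ => hpos _
      have hPQ : Real.exp (-C / 2) ^ 2 ≤ P * Q⁻¹ := by
        rw [← Real.exp_nat_mul, ← div_eq_mul_inv, ← Real.exp_log (div_pos hP hQ),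
          Real.exp_le_exp, Real.log_div hP.ne' hQ.ne']
        push_cast; linarith
      nlinarith [sq_nonneg (P - Q⁻¹), Real.exp_pos (-C / 2), inv_pos.2 hQ]
    have hmon := monotone_of_hasDerivAt_nonneg hk hge hlt.le
    simp only at hmon
    linarith
  -- a wandering interval
  have hconst : ∀ z ∈ Icc a b, h z = h a := fun z hz =>
    le_antisymm (hab ▸ hmono hz.2) (hmono hz.1)
  have hgsc : ∀ x, h (g x) = h x + -τ := fun x => by
    have := hsc (g x); rw [hgr] at this; linarith
  have total : ∀ (F G : ℝ → ℝ) (σ : ℝ), StrictMono F → LeftInverse G F → RightInverse G F →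
      Irrational σ → (∀ x, h (F x) = h x + σ) → ∀ s : Finset ℕ,
      ∑ n ∈ s, (F^[n] b - F^[n] a) ≤ 1 := by
    intro F G σ hF hGl hGr hσ hFsc s
    refine sum_length_le_one s (fun n _ => hF.iterate n hlt) fun i _ j _ l z hi1 hi2 hj1 hj2 => ?_
    have hv : ∀ k w, F^[k] a < w → w < F^[k] b → h w = h a + k * σ := fun k w hw1 hw2 => by
      have e : F^[k] (G^[k] w) = w := hGr.iterate k w
      rw [← e, semiconj_iterate hFsc, hconst]
      exact ⟨(hF.iterate k).le_iff_le.1 (e.symm ▸ hw1.le),
        (hF.iterate k).le_iff_le.1 (e.symm ▸ hw2.le)⟩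
    have e1 := hv i z hi1 hi2
    have e2 := hv j (z + ((-l : ℤ) : ℝ)) (by push_cast; linarith) (by push_cast; linarith)
    rw [map_add_int h1, e1] at e2
    push_cast at e2
    have hij : i = j := by
      by_contra hne
      refine (hσ.intCast_mul (sub_ne_zero.2 (Int.natCast_inj.not.2 hne) : (i : ℤ) - j ≠ 0)).ne_int
        l ?_
      push_cast; linarith
    subst hij
    exact ⟨rfl, by exact_mod_cast (show (l : ℝ) = 0 by linarith)⟩
  obtain ⟨N, hN⟩ := exists_nat_gt (2 / (κ * (b - a)))
  obtain ⟨s, hs, hcard⟩ := (infinite_returns hτ).exists_subset_card_eq N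
  have hκ0 : 0 < κ * (b - a) := mul_pos (by positivity) (sub_pos.2 hlt)
  have h2 : (N : ℝ) * (κ * (b - a)) ≤ 2 := by
    have := Finset.sum_le_sum fun n (hn : n ∈ s) => grow n (hs hn)
    rw [Finset.sum_const, hcard, nsmul_eq_mul, Finset.sum_add_distrib] at this
    linarith [total f g τ hfmono hgl hgr hτ hsc s, total g f (-τ) hgmono hgr hgl hτ.neg hgsc s]
  rw [div_lt_iff₀ hκ0] at hN
  linarith

/-- **Denjoy's theorem**, for `log f'` Lipschitz. -/
theorem exists_conjugacy (F : CircleDeg1Lift) (hf : ∀ x, HasDerivAt F (f' x) x)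
    (hpos : ∀ x, 0 < f' x) (hper : ∀ x, f' (x + 1) = f' x)
    (hlip : ∀ x y, |Real.log (f' x) - Real.log (f' y)| ≤ C * |x - y|)
    (hτ : Irrational F.translationNumber) :
    ∃ e : ℝ ≃ₜ ℝ, StrictMono e ∧ (∀ x, e (x + 1) = e x + 1) ∧
      ∀ x, e (F x) = e x + F.translationNumber := by
  have hC : 0 ≤ C := by simpa using (abs_nonneg _).trans (hlip 1 0)
  have hcf : Continuous F := continuous_iff_continuousAt.2 fun x => (hf x).continuousAt
  have hmonoF : StrictMono F := strictMono_of_hasDerivAt_pos hf hpos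
  have hsurj : Surjective F := hcf.surjective F.tendsto_atTop F.tendsto_atBot
  obtain ⟨H, hH⟩ := CircleDeg1Lift.semiconj_of_bijective_of_translationNumber_eq
    ⟨hmonoF.injective, hsurj⟩
    (CircleDeg1Lift.isUnit_iff_bijective.1
      (CircleDeg1Lift.translate (Multiplicative.ofAdd F.translationNumber)).isUnit)
    (CircleDeg1Lift.translationNumber_translate _).symm
  have hsc : ∀ x, H (F x) = H x + F.translationNumber := fun x => by
    rw [hH x, CircleDeg1Lift.translate_apply, add_comm]
  have hdense : DenseRange H := by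
    refine Dense.mono (fun y hy => ?_) (dense_nat_mul_add_int hτ (H 0))
    obtain ⟨n, m, hy⟩ := hy
    exact ⟨F^[n] 0 + m, by rw [map_add_int H.map_add_one, semiconj_iterate hsc, hy]⟩
  have hcH : Continuous H := H.monotone.continuous_of_denseRange hdense
  obtain ⟨G, hGl, hGr⟩ := Function.bijective_iff_has_inverse.1 ⟨hmonoF.injective, hsurj⟩
  have hstrict : StrictMono H := injective_of_semiconj hf hpos hGl hGr hper hlip hC hτ H.monotone
    H.map_add_one hsc
  exact ⟨(hstrict.orderIsoOfSurjective H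
    (hcH.surjective H.tendsto_atTop H.tendsto_atBot)).toHomeomorph, hstrict, H.map_add_one, hsc⟩

end FA.Denjoy

end
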