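import Fermat.Agent.Denjoy.Main

/-!
# Diffeomorphisms of class `C²` and an example with every rotation number
-/

set_option autoImplicit false

noncomputable section

open Function Set Filter Topology

namespace FA.Denjoy

/-- The logarithm of the derivative of a `C²` circle diffeomorphism is Lipschitz. -/
theorem exists_lipschitz {f : ℝ → ℝ} (hf : ContDiff ℝ 2 f) (hpos : ∀ x, 0 < deriv f x)
    (h1 : ∀ x, f (x + 1) = f x + 1) :
    ∃ C : ℝ, ∀ x y, |Real.log (deriv f x) - Real.log (deriv f y)| ≤ C * |x - y| := by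
  have hd : ContDiff ℝ 1 (deriv f) := (contDiff_succ_iff_deriv.1 (hf.of_le le_rfl)).2.2
  have hper : Periodic (deriv f) 1 := fun x => by
    rw [← deriv_comp_add_const, funext h1, deriv_add_const]
  set φ := fun x => Real.log (deriv f x) with hφ
  have hφ1 : ContDiff ℝ 1 φ := hd.log fun x => (hpos x).ne'
  have hφper : Periodic φ 1 := fun x => by simp only [hφ, hper x]
  have hφ'per : Periodic (deriv φ) 1 := fun x => by
    rw [← deriv_comp_add_const, funext hφper]
  obtain ⟨C, hC⟩ := isCompact_Icc.exists_bound_of_continuousOn (s := Icc (0 : ℝ) 1)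
    hφ1.continuous_deriv_one.continuousOn
  have hall : ∀ x, ‖deriv φ x‖ ≤ C := fun x => by
    obtain ⟨y, hy, hxy⟩ := hφ'per.exists_mem_Ico₀ one_pos x
    rw [hxy]; exact hC y (Ico_subset_Icc_self hy)
  exact ⟨C, fun x y => by
    simpa [Real.norm_eq_abs] using convex_univ.norm_image_sub_le_of_norm_deriv_le
      (fun x _ => (hφ1.differentiable one_ne_zero) x) (fun x _ => hall x) (mem_univ y) (mem_univ x)⟩

/-- The lift given by a `C²` map. -/
def liftOf (f : ℝ → ℝ) (hpos : ∀ x, 0 < deriv f x) (h1 : ∀ x, f (x + 1) = f x + 1) :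
    CircleDeg1Lift where
  toFun := f
  monotone' := (strictMono_of_deriv_pos hpos).monotone
  map_add_one' := h1

theorem exists_conjugacy_smooth {f : ℝ → ℝ} (hf : ContDiff ℝ 2 f) (hpos : ∀ x, 0 < deriv f x)
    (h1 : ∀ x, f (x + 1) = f x + 1) (hτ : Irrational (liftOf f hpos h1).translationNumber) :
    ∃ e : ℝ ≃ₜ ℝ, StrictMono e ∧ (∀ x, e (x + 1) = e x + 1) ∧
      ∀ x, e (f x) = e x + (liftOf f hpos h1).translationNumber := by
  obtain ⟨C, hC⟩ := exists_lipschitz hf hpos h1
  exact exists_conjugacy (liftOf f hpos h1)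
    (fun x => (hf.differentiable two_ne_zero x).hasDerivAt) hpos
    (fun x => by rw [← deriv_comp_add_const, funext h1, deriv_add_const]) hC hτ

/-- A conjugated irrational translation has dense orbits. -/
theorem dense_orbit {f : ℝ → ℝ} {e : ℝ ≃ₜ ℝ} {τ : ℝ} (hτ : Irrational τ)
    (h1 : ∀ x, e (x + 1) = e x + 1) (hsc : ∀ x, e (f x) = e x + τ) (x : ℝ) :
    Dense {y : ℝ | ∃ (n : ℕ) (m : ℤ), y = f^[n] x + m} := by
  refine ((dense_nat_mul_add_int hτ (e x)).preimage e.isOpenMap).mono ?_
  rintro y ⟨n, m, hy⟩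
  exact ⟨n, m, e.injective (by rw [hy, map_add_int h1, semiconj_iterate hsc])⟩

/-! ### The family `x + t + sin (2 π x) / (4 π)` -/

/-- An example that is not a translation. -/
def wave (t x : ℝ) : ℝ := x + t + Real.sin (2 * Real.pi * x) / (4 * Real.pi)

theorem wave_hasDerivAt (t x : ℝ) :
    HasDerivAt (wave t) (1 + Real.cos (2 * Real.pi * x) / 2) x := by
  have := Real.pi_pos
  refine (((hasDerivAt_id x).add_const t).add
    (((hasDerivAt_id x).const_mul (2 * Real.pi)).sin.div_const (4 * Real.pi))).congr_deriv ?_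
  simp only [id]
  field_simp
  ring

theorem wave_contDiff (t : ℝ) : ContDiff ℝ 2 (wave t) := by unfold wave; fun_prop

theorem wave_deriv_pos (t x : ℝ) : 0 < deriv (wave t) x := by
  rw [(wave_hasDerivAt t x).deriv]
  linarith [Real.neg_one_le_cos (2 * Real.pi * x)]

theorem wave_add_one (t x : ℝ) : wave t (x + 1) = wave t x + 1 := by
  simp only [wave]
  rw [show 2 * Real.pi * (x + 1) = 2 * Real.pi * x + 2 * Real.pi by ring, Real.sin_add_two_pi]
  ring

theorem wave_not_translation (t : ℝ) : ∃ x y, wave t x - x ≠ wave t y - y := by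
  refine ⟨1 / 4, 0, ?_⟩
  simp only [wave]
  rw [show 2 * Real.pi * (1 / 4) = Real.pi / 2 by ring, Real.sin_pi_div_two]
  have := Real.pi_pos
  intro h
  simp at h
  linarith [mul_pos (inv_pos.2 this) (inv_pos.2 (by norm_num : (0 : ℝ) < 4))]

/-- The lift of `wave`. -/
abbrev waveLift (t : ℝ) : CircleDeg1Lift := liftOf (wave t) (wave_deriv_pos t) (wave_add_one t)

theorem continuous_translationNumber_wave :
    Continuous fun t => (waveLift t).translationNumber := by
  refine continuous_of_uniform_approx_of_continuous fun u hu => ?_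
  obtain ⟨ε, hε, hu⟩ := Metric.mem_uniformity_dist.1 hu
  obtain ⟨n, hn⟩ := exists_nat_gt (1 / ε)
  have hn0 : (0 : ℝ) < n := (one_div_pos.2 hε).trans hn
  refine ⟨fun t => (wave t)^[n] 0 / n, ?_, fun t => hu ?_⟩
  · refine Continuous.div_const ?_ _
    clear hn hn0
    induction n with
    | zero => simpa using continuous_const
    | succ n ih =>
      simp only [iterate_succ_apply']
      unfold wave at ih ⊢
      fun_prop
  · have h := (waveLift t).dist_pow_map_zero_mul_translationNumber_le n
    rw [CircleDeg1Lift.coe_pow, Real.dist_eq] at h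
    rw [Real.dist_eq, show (waveLift t).translationNumber - (wave t)^[n] 0 / n =
      -((waveLift t)^[n] 0 - n * (waveLift t).translationNumber) / n by
        rw [show ⇑(waveLift t) = wave t from rfl]; field_simp; ring, abs_div, abs_neg,
      abs_of_pos hn0, div_lt_iff₀ hn0]
    rw [div_lt_iff₀ hε] at hn
    linarith

theorem exists_wave (τ : ℝ) : ∃ t, (waveLift t).translationNumber = τ := by
  have hb : ∀ x, |Real.sin (2 * Real.pi * x) / (4 * Real.pi)| ≤ 1 := fun x => by
    have := Real.pi_gt_three
    rw [abs_div, abs_of_pos (by positivity : (0 : ℝ) < 4 * Real.pi), div_le_one (by positivity)]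
    linarith [Real.abs_sin_le_one (2 * Real.pi * x)]
  have lo : (waveLift (τ - 1)).translationNumber ≤ τ :=
    (waveLift (τ - 1)).translationNumber_le_of_le_add fun x => by
      show wave (τ - 1) x ≤ x + τ
      simp only [wave]; linarith [(abs_le.1 (hb x)).2]
  have hi : τ ≤ (waveLift (τ + 1)).translationNumber :=
    (waveLift (τ + 1)).le_translationNumber_of_add_le fun x => by
      show x + τ ≤ wave (τ + 1) x
      simp only [wave]; linarith [(abs_le.1 (hb x)).1]
  obtain ⟨t, -, ht⟩ := intermediate_value_Icc (by linarith : τ - 1 ≤ τ + 1)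
    continuous_translationNumber_wave.continuousOn ⟨lo, hi⟩
  exact ⟨t, ht⟩

end FA.Denjoy

end
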